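import Fermat.Agent.S21.H72.CocycleBound

/-!
# Dimensions of invariants of a permutation representation

For a finite `G`-set `X` and `V = X → ℂ`:
* `trace (act g) = #Fix(g)`;
* if `s²` acts trivially, `2 · dim V^s = |X| + #Fix(s)`;
* if `u³` acts trivially, `3 · dim V^u = |X| + 2 · #Fix(u)`;
* `#(orbits of ⟨g⟩) ≤ dim V^g`.
-/

namespace Fermat.Agent.S21.H72

open Module

section

variable {G : Type*} [Group G] {X : Type*} [MulAction G X] [Fintype X]

theorem trace_act (g : G) :
    LinearMap.trace ℂ (X → ℂ) (act g) = (Nat.card (MulAction.fixedBy X g) : ℂ) := by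
  classical
  rw [LinearMap.trace_eq_matrix_trace ℂ (Pi.basisFun ℂ X), LinearMap.toMatrix_eq_toMatrix',
    Matrix.trace]
  simp only [Matrix.diag_apply, LinearMap.toMatrix'_apply, act_apply, Pi.single_apply]
  rw [Finset.sum_boole, Nat.card_eq_fintype_card, Fintype.card_subtype]
  congr 2
  ext x
  simp only [Finset.mem_filter, Finset.mem_univ, true_and, MulAction.mem_fixedBy]
  rw [inv_smul_eq_iff, eq_comm]

theorem two_mul_finrank_invariants (s : G) (hs : ∀ x : X, (s * s) • x = x) :
    2 * finrank ℂ (invariants (X := X) s)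
      = Fintype.card X + Nat.card (MulAction.fixedBy X s) := by
  let P : (X → ℂ) →ₗ[ℂ] (X → ℂ) := (2 : ℂ)⁻¹ • (LinearMap.id + act s)
  have hP : LinearMap.IsProj (invariants (X := X) s) P := by
    refine ⟨fun x ↦ ?_, fun x hx ↦ ?_⟩
    · rw [mem_invariants]
      show act s ((2 : ℂ)⁻¹ • (x + act s x)) = (2 : ℂ)⁻¹ • (x + act s x)
      rw [map_smul, map_add, ← act_mul, act_eq_self_of_smul (s * s) hs, add_comm]
    · rw [mem_invariants] at hx
      show (2 : ℂ)⁻¹ • (x + act s x) = x
      rw [hx, ← two_smul ℂ x, smul_smul]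
      norm_num
  have h1 := hP.trace
  have h2 : LinearMap.trace ℂ (X → ℂ) P
      = (2 : ℂ)⁻¹ * ((Fintype.card X : ℂ) + (Nat.card (MulAction.fixedBy X s) : ℂ)) := by
    show LinearMap.trace ℂ (X → ℂ) ((2 : ℂ)⁻¹ • (LinearMap.id + act s)) = _
    rw [map_smul, map_add, LinearMap.trace_id, trace_act, Module.finrank_fintype_fun_eq_card,
      smul_eq_mul]
  rw [h2] at h1
  have h3 : ((2 * finrank ℂ (invariants (X := X) s) : ℕ) : ℂ)
      = ((Fintype.card X + Nat.card (MulAction.fixedBy X s) : ℕ) : ℂ) := by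
    push_cast
    rw [← h1]
    ring
  exact_mod_cast h3

omit [Fintype X] in
theorem fixedBy_mul_self_eq (u : G) (hu : ∀ x : X, (u * u * u) • x = x) :
    MulAction.fixedBy X (u * u) = MulAction.fixedBy X u := by
  ext x
  simp only [MulAction.mem_fixedBy]
  constructor
  · intro h
    have h1 : u • x = (u * u * u) • x := by
      conv_lhs => rw [← h]
      rw [← mul_smul, mul_assoc]
    rw [h1, hu]
  · intro h
    rw [mul_smul, h, h]

theorem three_mul_finrank_invariants (u : G) (hu : ∀ x : X, (u * u * u) • x = x) :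
    3 * finrank ℂ (invariants (X := X) u)
      = Fintype.card X + 2 * Nat.card (MulAction.fixedBy X u) := by
  let P : (X → ℂ) →ₗ[ℂ] (X → ℂ) := (3 : ℂ)⁻¹ • (LinearMap.id + act u + act (u * u))
  have hP : LinearMap.IsProj (invariants (X := X) u) P := by
    refine ⟨fun x ↦ ?_, fun x hx ↦ ?_⟩
    · rw [mem_invariants]
      show act u ((3 : ℂ)⁻¹ • (x + act u x + act (u * u) x))
        = (3 : ℂ)⁻¹ • (x + act u x + act (u * u) x)
      rw [map_smul, map_add, map_add, ← act_mul u (u * u), ← mul_assoc,
        act_eq_self_of_smul (u * u * u) hu, ← act_mul]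
      congr 1
      abel
    · rw [mem_invariants] at hx
      show (3 : ℂ)⁻¹ • (x + act u x + act (u * u) x) = x
      rw [act_mul, hx, hx]
      have : x + x + x = (3 : ℂ) • x := by
        funext i
        simp only [Pi.add_apply, Pi.smul_apply, smul_eq_mul]
        ring
      rw [this, smul_smul]
      norm_num
  have h1 := hP.trace
  have h2 : LinearMap.trace ℂ (X → ℂ) P
      = (3 : ℂ)⁻¹ * ((Fintype.card X : ℂ) + (Nat.card (MulAction.fixedBy X u) : ℂ)
          + (Nat.card (MulAction.fixedBy X u) : ℂ)) := by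
    show LinearMap.trace ℂ (X → ℂ) ((3 : ℂ)⁻¹ • (LinearMap.id + act u + act (u * u))) = _
    rw [map_smul, map_add, map_add, LinearMap.trace_id, trace_act, trace_act,
      Module.finrank_fintype_fun_eq_card, smul_eq_mul, fixedBy_mul_self_eq u hu]
  rw [h2] at h1
  have h3 : ((3 * finrank ℂ (invariants (X := X) u) : ℕ) : ℂ)
      = ((Fintype.card X + 2 * Nat.card (MulAction.fixedBy X u) : ℕ) : ℂ) := by
    push_cast
    rw [← h1]
    ring
  exact_mod_cast h3

theorem card_orbits_le_finrank_invariants (g : G) :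
    Nat.card (MulAction.orbitRel.Quotient (Subgroup.zpowers g) X)
      ≤ finrank ℂ (invariants (X := X) g) := by
  classical
  let Ω := MulAction.orbitRel.Quotient (Subgroup.zpowers g) X
  let _ : Fintype Ω := Fintype.ofFinite _
  let mk : X → Ω := Quotient.mk''
  have hmk : ∀ x : X, mk (g⁻¹ • x) = mk x := by
    intro x
    apply Quotient.sound
    show MulAction.orbitRel (Subgroup.zpowers g) X (g⁻¹ • x) x
    rw [MulAction.orbitRel_apply]
    exact ⟨⟨g⁻¹, Subgroup.inv_mem _ (Subgroup.mem_zpowers g)⟩, rfl⟩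
  let L : (Ω → ℂ) →ₗ[ℂ] invariants (X := X) g :=
    LinearMap.codRestrict _ (LinearMap.funLeft ℂ ℂ mk) (by
      intro f
      rw [mem_invariants]
      funext x
      show f (mk (g⁻¹ • x)) = f (mk x)
      rw [hmk])
  have hL : Function.Injective L := by
    intro f f' h
    have h' : LinearMap.funLeft ℂ ℂ mk f = LinearMap.funLeft ℂ ℂ mk f' :=
      congrArg Subtype.val h
    exact LinearMap.funLeft_injective_of_surjective ℂ ℂ mk Quotient.mk''_surjective h'
  have := LinearMap.finrank_le_finrank_of_injective hL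
  rwa [Module.finrank_fintype_fun_eq_card, ← Nat.card_eq_fintype_card] at this

end

end Fermat.Agent.S21.H72
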