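import Fermat.Agent.S21.H72.ParabolicBound
import Fermat.Agent.S21.H72.InvariantsDim
import Fermat.Prelude.Def_ModularCurve_GenusNumerics

/-!
# `dim Hom_par(Γ, ℂ) ≤ 2g`

Fixed-point / orbit-count form for a finite-index `Γ ≤ SL(2, ℤ)` containing `-1`, and the
genus-formula form for `Γ₀(N)` (given the combinatorial identities for `SL(2, ℤ) ⧸ Γ₀(N)`).
-/

namespace Fermat.Agent.S21.H72

open Module Matrix MatrixGroups ModularGroup ModularCurve.Period CongruenceSubgroup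

/-- The space of parabolic homomorphisms `Γ → ℂ` is finite-dimensional. -/
theorem finite_parabolicHoms (Γ : Subgroup SL(2, ℤ)) [Γ.FiniteIndex] (hneg : -1 ∈ Γ) :
    Module.Finite ℂ (parabolicHoms ℂ Γ ℂ) :=
  (finrank_parabolicHoms_add_invariants_le Γ hneg).1

/-- `6 dim Hom_par(Γ, ℂ) + 3 #Fix(S) + 4 #Fix(ST) + 6 #(T-orbits) ≤ [SL(2, ℤ) : Γ] + 12`. -/
theorem six_mul_finrank_parabolicHoms_le (Γ : Subgroup SL(2, ℤ)) [Γ.FiniteIndex]
    (hneg : -1 ∈ Γ) :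
    6 * finrank ℂ (parabolicHoms ℂ Γ ℂ)
      + 3 * Nat.card (MulAction.fixedBy (SL(2, ℤ) ⧸ Γ) S)
      + 4 * Nat.card (MulAction.fixedBy (SL(2, ℤ) ⧸ Γ) (S * T))
      + 6 * Nat.card (MulAction.orbitRel.Quotient (Subgroup.zpowers T) (SL(2, ℤ) ⧸ Γ))
      ≤ Nat.card (SL(2, ℤ) ⧸ Γ) + 12 := by
  classical
  let _ : Fintype (SL(2, ℤ) ⧸ Γ) := Fintype.ofFinite _
  have hSS : (S * S : SL(2, ℤ)) = -1 := by decide
  have hUUU : (S * T * (S * T) * (S * T) : SL(2, ℤ)) = -1 := by decide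
  have h0 := (finrank_parabolicHoms_add_invariants_le Γ hneg).2
  have h1 := two_mul_finrank_invariants (X := SL(2, ℤ) ⧸ Γ) S
    (fun x ↦ by rw [hSS]; exact neg_one_smul_coset Γ hneg x)
  have h2 := three_mul_finrank_invariants (X := SL(2, ℤ) ⧸ Γ) (S * T)
    (fun x ↦ by rw [hUUU]; exact neg_one_smul_coset Γ hneg x)
  have h3 : Nat.card (MulAction.orbitRel.Quotient (Subgroup.zpowers T) (SL(2, ℤ) ⧸ Γ))
      ≤ finrank ℂ (invariants (X := SL(2, ℤ) ⧸ Γ) T) :=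
    card_orbits_le_finrank_invariants (X := SL(2, ℤ) ⧸ Γ) T
  rw [← Nat.card_eq_fintype_card] at h1 h2
  omega

theorem neg_one_mem_Gamma0 (N : ℕ) : (-1 : SL(2, ℤ)) ∈ Gamma0 N := by
  rw [Gamma0_mem]
  simp

/-- `dim Hom_par(Γ₀(N), ℂ) ≤ 2 g(N)`, given the coset combinatorics of `SL(2, ℤ) ⧸ Γ₀(N)`. -/
theorem finrank_parabolicHoms_le_two_genus (N : ℕ) [NeZero N]
    (hμ : Nat.card (SL(2, ℤ) ⧸ Gamma0 N) = ModularCurve.dedekindPsi N)
    (h2 : Nat.card (MulAction.fixedBy (SL(2, ℤ) ⧸ Gamma0 N) S) = ModularCurve.nuTwo N)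
    (h3 : Nat.card (MulAction.fixedBy (SL(2, ℤ) ⧸ Gamma0 N) (S * T)) = ModularCurve.nuThree N)
    (hc : Nat.card (MulAction.orbitRel.Quotient (Subgroup.zpowers T) (SL(2, ℤ) ⧸ Gamma0 N))
      = ModularCurve.cuspCount N) :
    (finrank ℂ (parabolicHoms ℂ (Gamma0 N) ℂ) : ℚ) ≤ 2 * ModularCurve.genusFormula N := by
  have h := six_mul_finrank_parabolicHoms_le (Gamma0 N) (neg_one_mem_Gamma0 N)
  rw [hμ, h2, h3, hc] at h
  have h' : (6 * finrank ℂ (parabolicHoms ℂ (Gamma0 N) ℂ) + 3 * ModularCurve.nuTwo N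
      + 4 * ModularCurve.nuThree N + 6 * ModularCurve.cuspCount N : ℚ)
      ≤ (ModularCurve.dedekindPsi N : ℚ) + 12 := by
    exact_mod_cast h
  unfold ModularCurve.genusFormula
  linarith

end Fermat.Agent.S21.H72
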