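import Mathlib

/-!
# An abstract dimension bound for spaces of cocycles (towards `dim H¹_par ≤ 2g`)

`G` acts transitively on a finite set `X`; `V = X → ℂ` is the permutation representation.
If `G` is generated by `s` and `u`, with `s²` and `u³` acting trivially on `X`, and `H` is a
space of `V`-valued cocycles that
* vanish on `s²` and `u³`,
* vanish on some positive power of `t = s⁻¹ u` ("parabolic"),
* meet the coboundaries trivially,
then `dim H + dim V^s + dim V^u + dim V^t ≤ |X| + 2`.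
-/

namespace Fermat.Agent.S21.H72

open Module

section Act

variable {G : Type*} [Group G] {X : Type*} [MulAction G X]

/-- Permutation action on functions: `(act g v) x = v (g⁻¹ • x)`. -/
noncomputable def act (g : G) : (X → ℂ) →ₗ[ℂ] (X → ℂ) :=
  LinearMap.funLeft ℂ ℂ (fun x ↦ g⁻¹ • x)

@[simp] theorem act_apply (g : G) (v : X → ℂ) (x : X) : act g v x = v (g⁻¹ • x) := rfl

theorem act_one (v : X → ℂ) : act (1 : G) v = v := by
  funext x; simp

theorem act_mul (g h : G) (v : X → ℂ) : act (g * h) v = act g (act h v) := by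
  funext x; simp [mul_smul]

theorem act_inv_act (g : G) (v : X → ℂ) : act g⁻¹ (act g v) = v := by
  rw [← act_mul, inv_mul_cancel, act_one]

theorem act_act_inv (g : G) (v : X → ℂ) : act g (act g⁻¹ v) = v := by
  rw [← act_mul, mul_inv_cancel, act_one]

/-- If `z` acts trivially on `X`, it acts trivially on functions. -/
theorem act_eq_self_of_smul (z : G) (hz : ∀ x : X, z • x = x) (v : X → ℂ) : act z v = v := by
  funext x
  rw [act_apply]
  congr 1
  rw [inv_smul_eq_iff, hz]

/-- The subspace of `g`-invariant functions. -/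
noncomputable def invariants (g : G) : Submodule ℂ (X → ℂ) :=
  LinearMap.ker (act g - LinearMap.id)

theorem mem_invariants {g : G} {w : X → ℂ} : w ∈ invariants g ↔ act g w = w := by
  simp [invariants, sub_eq_zero]

theorem act_inv_of_act {g : G} {w : X → ℂ} (h : act g w = w) : act g⁻¹ w = w := by
  conv_lhs => rw [← h]
  exact act_inv_act g w

theorem act_pow_of_act {g : G} {w : X → ℂ} (h : act g w = w) (n : ℕ) : act (g ^ n) w = w := by
  induction n with
  | zero => rw [pow_zero, act_one]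
  | succ n ih => rw [pow_succ, act_mul, h, ih]

/-- A function invariant under a generating set is invariant under everything. -/
theorem act_eq_of_closure {S : Set G} (hS : Subgroup.closure S = ⊤) {w : X → ℂ}
    (h : ∀ s ∈ S, act s w = w) (g : G) : act g w = w := by
  have hg : g ∈ Subgroup.closure S := by rw [hS]; trivial
  induction hg using Subgroup.closure_induction with
  | mem x hx => exact h x hx
  | one => exact act_one w
  | mul x y _ _ hx hy => rw [act_mul, hy, hx]
  | inv x _ hx => exact act_inv_of_act hx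

/-- A `G`-invariant function on a transitive `G`-set is constant. -/
theorem const_of_act_eq [MulAction.IsPretransitive G X] {w : X → ℂ} (h : ∀ g : G, act g w = w)
    (x y : X) : w x = w y := by
  obtain ⟨g, rfl⟩ := MulAction.exists_smul_eq G x y
  have := congrFun (h g⁻¹) x
  simpa using this.symm

end Act

section Dot

variable {G : Type*} [Group G] {X : Type*} [MulAction G X] [Fintype X]

theorem dot_act_act (g : G) (u v : X → ℂ) : act g u ⬝ᵥ act g v = u ⬝ᵥ v := by
  unfold dotProduct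
  exact Equiv.sum_comp (MulAction.toPerm g⁻¹) (fun x ↦ u x * v x)

theorem dot_act_right (g : G) (u v : X → ℂ) : u ⬝ᵥ act g v = act g⁻¹ u ⬝ᵥ v := by
  rw [← dot_act_act g⁻¹ u (act g v), act_inv_act]

theorem dot_act_left (g : G) (u v : X → ℂ) : act g u ⬝ᵥ v = u ⬝ᵥ act g⁻¹ v := by
  rw [dotProduct_comm, dot_act_right, dotProduct_comm]

theorem eq_zero_of_dot_eq_zero (z : X → ℂ) (h : ∀ y : X → ℂ, z ⬝ᵥ y = 0) : z = 0 := by
  classical
  funext x
  have := h (Pi.single x 1)
  simpa using this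

end Dot

section Cocycle

variable {G : Type*} [Group G] {X : Type*} [MulAction G X]

/-- `V`-valued 1-cocycles on `G`. -/
def IsCocycle (Ξ : G → X → ℂ) : Prop := ∀ g h, Ξ (g * h) = Ξ g + act g (Ξ h)

/-- The coboundary of `v`. -/
noncomputable def cob (v : X → ℂ) : G → X → ℂ := fun g ↦ act g v - v

theorem isCocycle_cob (v : X → ℂ) : IsCocycle (cob (G := G) v) := by
  intro g h
  simp only [cob, act_mul, map_sub]
  abel

theorem IsCocycle.add {Ξ Ξ' : G → X → ℂ} (h : IsCocycle Ξ) (h' : IsCocycle Ξ') :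
    IsCocycle (Ξ + Ξ') := by
  intro g k
  simp only [Pi.add_apply, h g k, h' g k, map_add]
  abel

theorem IsCocycle.map_one {Ξ : G → X → ℂ} (h : IsCocycle Ξ) : Ξ 1 = 0 := by
  have := h 1 1
  rw [mul_one, act_one] at this
  exact left_eq_add.mp this |>.symm ▸ rfl

theorem IsCocycle.map_inv {Ξ : G → X → ℂ} (h : IsCocycle Ξ) (g : G) :
    Ξ g⁻¹ = - act g⁻¹ (Ξ g) := by
  have := h g⁻¹ g
  rw [inv_mul_cancel, h.map_one] at this
  exact eq_neg_of_add_eq_zero_left this.symm

theorem IsCocycle.map_pow {Ξ : G → X → ℂ} (h : IsCocycle Ξ) (g : G) (n : ℕ) :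
    Ξ (g ^ n) = ∑ i ∈ Finset.range n, act (g ^ i) (Ξ g) := by
  induction n with
  | zero => simp [h.map_one]
  | succ n ih => rw [pow_succ, h, ih, Finset.sum_range_succ]

/-- A cocycle vanishing on a generating set vanishes. -/
theorem IsCocycle.eq_zero_of_closure {Ξ : G → X → ℂ} (h : IsCocycle Ξ) {S : Set G}
    (hS : Subgroup.closure S = ⊤) (h0 : ∀ s ∈ S, Ξ s = 0) (g : G) : Ξ g = 0 := by
  have hg : g ∈ Subgroup.closure S := by rw [hS]; trivial
  induction hg using Subgroup.closure_induction with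
  | mem x hx => exact h0 x hx
  | one => exact h.map_one
  | mul x y _ _ hx hy => rw [h, hx, hy, map_zero, add_zero]
  | inv x _ hx => rw [h.map_inv, hx, map_zero, neg_zero]

end Cocycle

section Bound

variable {G : Type*} [Group G] {X : Type*} [MulAction G X] [Fintype X]

/-- The sum functional. -/
noncomputable def sumL : (X → ℂ) →ₗ[ℂ] ℂ := ∑ x, LinearMap.proj x

theorem sumL_apply (v : X → ℂ) : sumL v = ∑ x, v x := by
  simp [sumL, LinearMap.sum_apply]

theorem finrank_ker_sumL [Nonempty X] :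
    finrank ℂ (LinearMap.ker (sumL (X := X))) + 1 = Fintype.card X := by
  classical
  have hsurj : Function.Surjective (sumL (X := X)) := by
    intro c
    obtain ⟨x⟩ := ‹Nonempty X›
    exact ⟨Pi.single x c, by simp [sumL_apply]⟩
  have h := LinearMap.finrank_range_add_finrank_ker (sumL (X := X))
  rw [LinearMap.range_eq_top.mpr hsurj, finrank_top, finrank_self,
    Module.finrank_fintype_fun_eq_card] at h
  omega

/-- `1 + s` on functions. -/
noncomputable def opS (s : G) : (X → ℂ) →ₗ[ℂ] (X → ℂ) := LinearMap.id + act s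

/-- `1 + u + u²` on functions. -/
noncomputable def opU (u : G) : (X → ℂ) →ₗ[ℂ] (X → ℂ) := LinearMap.id + act u + act (u * u)

omit [Fintype X] in
theorem opS_apply (s : G) (v : X → ℂ) : opS s v = v + act s v := rfl

omit [Fintype X] in
theorem opU_apply (u : G) (v : X → ℂ) : opU u v = v + act u v + act (u * u) v := rfl

theorem finrank_ker_opS_add_le (s : G) :
    finrank ℂ (LinearMap.ker (opS (X := X) s)) + finrank ℂ (invariants (X := X) s)
      ≤ Fintype.card X := by
  have h := LinearMap.finrank_range_add_finrank_ker (opS (X := X) s)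
  rw [Module.finrank_fintype_fun_eq_card] at h
  have hle : invariants (X := X) s ≤ LinearMap.range (opS (X := X) s) := by
    intro w hw
    rw [mem_invariants] at hw
    refine ⟨(2 : ℂ)⁻¹ • w, ?_⟩
    rw [opS_apply, map_smul, hw, ← add_smul]
    norm_num
  have := Submodule.finrank_mono hle
  omega

theorem finrank_ker_opU_add_le (u : G) :
    finrank ℂ (LinearMap.ker (opU (X := X) u)) + finrank ℂ (invariants (X := X) u)
      ≤ Fintype.card X := by
  have h := LinearMap.finrank_range_add_finrank_ker (opU (X := X) u)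
  rw [Module.finrank_fintype_fun_eq_card] at h
  have hle : invariants (X := X) u ≤ LinearMap.range (opU (X := X) u) := by
    intro w hw
    rw [mem_invariants] at hw
    refine ⟨(3 : ℂ)⁻¹ • w, ?_⟩
    rw [opU_apply, map_smul, map_smul, act_mul, hw, hw, ← add_smul, ← add_smul]
    norm_num
  have := Submodule.finrank_mono hle
  omega

omit [Fintype X] in
theorem sub_act_mem_ker_opS (s : G) (hs : ∀ x : X, (s * s) • x = x) (y : X → ℂ) :
    y - act s y ∈ LinearMap.ker (opS (X := X) s) := by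
  rw [LinearMap.mem_ker, opS_apply, map_sub, ← act_mul, act_eq_self_of_smul (s * s) hs]
  abel

omit [Fintype X] in
theorem sub_act_mem_ker_opU (u : G) (hu : ∀ x : X, (u * u * u) • x = x) (y : X → ℂ) :
    y - act u y ∈ LinearMap.ker (opU (X := X) u) := by
  rw [LinearMap.mem_ker, opU_apply, map_sub, map_sub, ← act_mul (u * u) u,
    act_eq_self_of_smul (u * u * u) hu, act_mul u u]
  abel

omit [Fintype X] in
theorem IsCocycle.opS_apply {Ξ : G → X → ℂ} (h : IsCocycle Ξ) (s : G) :
    opS s (Ξ s) = Ξ (s * s) := by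
  rw [h s s]; rfl

omit [Fintype X] in
theorem IsCocycle.opU_apply {Ξ : G → X → ℂ} (h : IsCocycle Ξ) (u : G) :
    opU u (Ξ u) = Ξ (u * u * u) := by
  rw [h (u * u) u, h u u]; rfl

omit [Fintype X] in
theorem IsCocycle.map_inv_mul {Ξ : G → X → ℂ} (h : IsCocycle Ξ) (s u : G) :
    Ξ (s⁻¹ * u) = act s⁻¹ (Ξ u - Ξ s) := by
  rw [h, h.map_inv, map_sub]; abel

theorem dot_cob_eq_zero {t : G} {w : X → ℂ} (hw : act t w = w) (v : X → ℂ) :
    w ⬝ᵥ cob v t = 0 := by
  rw [cob, dotProduct_sub, dot_act_right, act_inv_of_act hw, sub_self]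

theorem IsCocycle.dot_eq_zero_of_pow {Ξ : G → X → ℂ} (h : IsCocycle Ξ) {t : G} {w : X → ℂ}
    (hw : act t w = w) {n : ℕ} (hn : 0 < n) (h0 : Ξ (t ^ n) = 0) : w ⬝ᵥ Ξ t = 0 := by
  have h1 : w ⬝ᵥ Ξ (t ^ n) = n * (w ⬝ᵥ Ξ t) := by
    rw [h.map_pow, dotProduct_sum]
    have : ∀ i ∈ Finset.range n, w ⬝ᵥ act (t ^ i) (Ξ t) = w ⬝ᵥ Ξ t := by
      intro i _
      rw [dot_act_right, ← inv_pow, act_pow_of_act (act_inv_of_act hw)]
    rw [Finset.sum_congr rfl this]
    simp
  rw [h0, dotProduct_zero] at h1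
  have hn' : (n : ℂ) ≠ 0 := by exact_mod_cast hn.ne'
  exact (mul_eq_zero.mp h1.symm).resolve_left hn'

/-- The abstract dimension bound. -/
theorem cocycle_space_bound
    {H : Type*} [AddCommGroup H] [Module ℂ H]
    [MulAction.IsPretransitive G X] [Nonempty X]
    (s u : G) (hgen : Subgroup.closure ({s, u} : Set G) = ⊤)
    (hs : ∀ x : X, (s * s) • x = x) (hu : ∀ x : X, (u * u * u) • x = x)
    (Φ : H →ₗ[ℂ] (G → X → ℂ))
    (hcoc : ∀ φ, IsCocycle (Φ φ))
    (hs0 : ∀ φ, Φ φ (s * s) = 0) (hu0 : ∀ φ, Φ φ (u * u * u) = 0)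
    (hpar : ∀ φ, ∃ n : ℕ, 0 < n ∧ Φ φ ((s⁻¹ * u) ^ n) = 0)
    (hinj : ∀ φ (v : X → ℂ), (∀ g, Φ φ g + cob v g = 0) → φ = 0) :
    Module.Finite ℂ H ∧
      finrank ℂ H + finrank ℂ (invariants (X := X) s) + finrank ℂ (invariants (X := X) u)
        + finrank ℂ (invariants (X := X) (s⁻¹ * u)) ≤ Fintype.card X + 2 := by
  classical
  -- notation
  let V₀ : Submodule ℂ (X → ℂ) := LinearMap.ker (sumL (X := X))
  let Ks : Submodule ℂ (X → ℂ) := LinearMap.ker (opS (X := X) s)
  let Ku : Submodule ℂ (X → ℂ) := LinearMap.ker (opU (X := X) u)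
  let I : Submodule ℂ (X → ℂ) := invariants (X := X) (s⁻¹ * u)
  -- value at `g` of the cocycle attached to `(φ, v)`
  let Ψg : G → (H × V₀ →ₗ[ℂ] (X → ℂ)) := fun g ↦
    ((LinearMap.proj g : (G → X → ℂ) →ₗ[ℂ] (X → ℂ)) ∘ₗ Φ).coprod
      ((act g - LinearMap.id) ∘ₗ V₀.subtype)
  have hΨg : ∀ g (p : H × V₀), Ψg g p = Φ p.1 g + cob (p.2 : X → ℂ) g := fun g p ↦ rfl
  have hΞ : ∀ p : H × V₀, IsCocycle (fun g ↦ Ψg g p) := by
    intro p
    have := (hcoc p.1).add (isCocycle_cob (G := G) (p.2 : X → ℂ))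
    exact this
  have hΨs : ∀ p, Ψg s p ∈ Ks := by
    intro p
    rw [LinearMap.mem_ker, (hΞ p).opS_apply s, hΨg, hs0, zero_add, cob,
      act_eq_self_of_smul (s * s) hs, sub_self]
  have hΨu : ∀ p, Ψg u p ∈ Ku := by
    intro p
    rw [LinearMap.mem_ker, (hΞ p).opU_apply u, hΨg, hu0, zero_add, cob,
      act_eq_self_of_smul (u * u * u) hu, sub_self]
  let Ψ : H × V₀ →ₗ[ℂ] (Ks × Ku) :=
    ((Ψg s).codRestrict Ks hΨs).prod ((Ψg u).codRestrict Ku hΨu)
  -- injectivity
  have hΨinj : Function.Injective Ψ := by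
    rw [← LinearMap.ker_eq_bot, LinearMap.ker_eq_bot']
    intro p hp
    have h1 : Ψg s p = 0 := congrArg (fun q : Ks × Ku ↦ (q.1 : X → ℂ)) hp
    have h2 : Ψg u p = 0 := congrArg (fun q : Ks × Ku ↦ (q.2 : X → ℂ)) hp
    have hall : ∀ g, Ψg g p = 0 := by
      refine (hΞ p).eq_zero_of_closure hgen ?_
      intro x hx
      rcases hx with rfl | rfl
      · exact h1
      · exact h2
    have hφ : p.1 = 0 := hinj p.1 (p.2 : X → ℂ) (fun g ↦ by rw [← hΨg]; exact hall g)
    have hcob : ∀ g : G, act g (p.2 : X → ℂ) = (p.2 : X → ℂ) := by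
      intro g
      have := hall g
      rw [hΨg, hφ, map_zero, Pi.zero_apply, zero_add, cob, sub_eq_zero] at this
      exact this
    have hconst := const_of_act_eq hcob
    have hv : (p.2 : X → ℂ) = 0 := by
      have hsum : ∑ x, (p.2 : X → ℂ) x = 0 := by
        rw [← sumL_apply]; exact p.2.2
      obtain ⟨x₀⟩ := ‹Nonempty X›
      have hx₀ : (Fintype.card X : ℂ) * (p.2 : X → ℂ) x₀ = 0 := by
        rw [← hsum, Finset.sum_congr rfl (fun x _ ↦ hconst x x₀)]
        simp
      have hcard : (Fintype.card X : ℂ) ≠ 0 := by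
        exact_mod_cast Fintype.card_ne_zero
      funext x
      rw [hconst x x₀]
      exact (mul_eq_zero.mp hx₀).resolve_left hcard
    exact Prod.ext hφ (Subtype.ext hv)
  -- finiteness
  have hfin : Module.Finite ℂ H :=
    Module.Finite.of_injective (Ψ ∘ₗ LinearMap.inl ℂ H V₀)
      (hΨinj.comp LinearMap.inl_injective)
  refine ⟨hfin, ?_⟩
  -- the pairing
  let D : (Ks × Ku) →ₗ[ℂ] (X → ℂ) :=
    act s⁻¹ ∘ₗ (Ku.subtype ∘ₗ LinearMap.snd ℂ Ks Ku - Ks.subtype ∘ₗ LinearMap.fst ℂ Ks Ku)
  have hD : ∀ k : Ks × Ku, D k = act s⁻¹ ((k.2 : X → ℂ) - (k.1 : X → ℂ)) := fun k ↦ rfl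
  let B : (Ks × Ku) →ₗ[ℂ] I →ₗ[ℂ] ℂ := (dotProductBilin ℂ ℂ).compl₁₂ D I.subtype
  have hB : ∀ (k : Ks × Ku) (w : I), B k w = D k ⬝ᵥ (w : X → ℂ) := fun k w ↦ rfl
  -- range Ψ ≤ ker B
  have hrange : LinearMap.range Ψ ≤ LinearMap.ker B := by
    rintro _ ⟨p, rfl⟩
    rw [LinearMap.mem_ker]
    ext w
    rw [hB, hD, LinearMap.zero_apply]
    have hw : act (s⁻¹ * u) (w : X → ℂ) = (w : X → ℂ) := mem_invariants.mp w.2
    have h1 : (Ψ p).2 = (⟨Ψg u p, hΨu p⟩ : Ku) := rfl
    have h2 : (Ψ p).1 = (⟨Ψg s p, hΨs p⟩ : Ks) := rfl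
    rw [h1, h2]
    show act s⁻¹ (Ψg u p - Ψg s p) ⬝ᵥ (w : X → ℂ) = 0
    rw [← (hΞ p).map_inv_mul s u, dotProduct_comm, hΨg, dotProduct_add,
      dot_cob_eq_zero hw, add_zero]
    obtain ⟨n, hn, hn0⟩ := hpar p.1
    exact (hcoc p.1).dot_eq_zero_of_pow hw hn hn0
  -- the right kernel of B consists of constant functions
  have hker : ∀ w ∈ LinearMap.ker B.flip, ∀ x y : X, (w : X → ℂ) x = (w : X → ℂ) y := by
    intro w hw
    rw [LinearMap.mem_ker] at hw
    have hw' : ∀ k : Ks × Ku, D k ⬝ᵥ (w : X → ℂ) = 0 := by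
      intro k
      have := congrArg (fun f : (Ks × Ku) →ₗ[ℂ] ℂ ↦ f k) hw
      exact this
    have hSw : act s (w : X → ℂ) = (w : X → ℂ) := by
      rw [← sub_eq_zero]
      apply eq_zero_of_dot_eq_zero
      intro y
      have h := hw' (⟨y - act s y, sub_act_mem_ker_opS s hs y⟩, 0)
      have hDk : D (⟨y - act s y, sub_act_mem_ker_opS s hs y⟩, 0) = -(act s⁻¹ y - y) := by
        rw [hD]
        simp only [Submodule.coe_zero, zero_sub, map_neg, map_sub, act_inv_act]
      rw [hDk, neg_dotProduct, neg_eq_zero, sub_dotProduct, dot_act_left, inv_inv] at h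
      rw [dotProduct_comm, dotProduct_sub]
      exact h
    have hUw : act u (w : X → ℂ) = (w : X → ℂ) := by
      have hinv : act u⁻¹ (w : X → ℂ) = (w : X → ℂ) := by
        rw [← sub_eq_zero]
        apply eq_zero_of_dot_eq_zero
        intro y
        have h := hw' (0, ⟨y - act u y, sub_act_mem_ker_opU u hu y⟩)
        have hDk : D (0, ⟨y - act u y, sub_act_mem_ker_opU u hu y⟩) = act s⁻¹ (y - act u y) := by
          rw [hD]
          simp only [Submodule.coe_zero, sub_zero]
        rw [hDk, dot_act_left, inv_inv, hSw, sub_dotProduct, dot_act_left] at h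
        rw [dotProduct_comm, dotProduct_sub]
        linear_combination -h
      have := act_inv_of_act hinv
      rwa [inv_inv] at this
    have hall : ∀ g : G, act g (w : X → ℂ) = (w : X → ℂ) := by
      refine act_eq_of_closure hgen ?_
      intro x hx
      rcases hx with rfl | rfl
      · exact hSw
      · exact hUw
    exact const_of_act_eq hall
  -- counting
  have e7 : finrank ℂ (LinearMap.ker B.flip) ≤ 1 := by
    obtain ⟨x₀⟩ := ‹Nonempty X›
    let ev : LinearMap.ker B.flip →ₗ[ℂ] ℂ :=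
      (LinearMap.proj x₀ : (X → ℂ) →ₗ[ℂ] ℂ) ∘ₗ I.subtype ∘ₗ (LinearMap.ker B.flip).subtype
    have hev : Function.Injective ev := by
      intro a b hab
      apply Subtype.ext
      apply Subtype.ext
      funext x
      rw [hker a.1 a.2 x x₀, hker b.1 b.2 x x₀]
      exact hab
    have := LinearMap.finrank_le_finrank_of_injective hev
    rwa [finrank_self] at this
  have e6 : finrank ℂ (LinearMap.range B.flip) ≤ finrank ℂ (LinearMap.range B) := by
    have hflip : B.flip = B.dualMap ∘ₗ (Module.Dual.eval ℂ I) :=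
      LinearMap.ext fun w ↦ LinearMap.ext fun k ↦ rfl
    rw [hflip, ← LinearMap.finrank_range_dualMap_eq_finrank_range B]
    exact Submodule.finrank_mono (LinearMap.range_comp_le_range _ _)
  have e1 : finrank ℂ (H × V₀) = finrank ℂ H + finrank ℂ V₀ := Module.finrank_prod
  have e2 : finrank ℂ (H × V₀) ≤ finrank ℂ (LinearMap.ker B) := by
    rw [← LinearMap.finrank_range_of_inj hΨinj]
    exact Submodule.finrank_mono hrange
  have e3 : finrank ℂ (LinearMap.range B) + finrank ℂ (LinearMap.ker B) = finrank ℂ (Ks × Ku) :=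
    LinearMap.finrank_range_add_finrank_ker B
  have e4 : finrank ℂ (Ks × Ku) = finrank ℂ Ks + finrank ℂ Ku := Module.finrank_prod
  have e5 : finrank ℂ (LinearMap.range B.flip) + finrank ℂ (LinearMap.ker B.flip) = finrank ℂ I :=
    LinearMap.finrank_range_add_finrank_ker B.flip
  have e8 : finrank ℂ Ks + finrank ℂ (invariants (X := X) s) ≤ Fintype.card X :=
    finrank_ker_opS_add_le (X := X) s
  have e9 : finrank ℂ Ku + finrank ℂ (invariants (X := X) u) ≤ Fintype.card X :=
    finrank_ker_opU_add_le (X := X) u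
  have e10 : finrank ℂ V₀ + 1 = Fintype.card X := finrank_ker_sumL (X := X)
  show finrank ℂ H + finrank ℂ (invariants (X := X) s) + finrank ℂ (invariants (X := X) u)
        + finrank ℂ I ≤ Fintype.card X + 2
  omega

end Bound

end Fermat.Agent.S21.H72
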