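import Fermat.Agent.S21.H72.CocycleBound
import Fermat.Prelude.Def_ModularCurve_PeriodMap

/-!
# `dim H¹_par(Γ, ℂ) + dim V^S + dim V^{ST} + dim V^T ≤ [SL₂(ℤ) : Γ] + 2`

For a finite-index subgroup `Γ ≤ SL(2, ℤ)` containing `-1`, with `V = (SL(2, ℤ) ⧸ Γ) → ℂ`.
The proof applies `cocycle_space_bound` to the induced ("Shapiro") cocycles.
-/

namespace Fermat.Agent.S21.H72

open Module Matrix MatrixGroups ModularGroup ModularCurve.Period

section Induced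

variable (Γ : Subgroup SL(2, ℤ))

/-- A coset representative. -/
noncomputable def rep (x : SL(2, ℤ) ⧸ Γ) : SL(2, ℤ) := Quotient.out x

theorem mk_rep (x : SL(2, ℤ) ⧸ Γ) : (QuotientGroup.mk (rep Γ x) : SL(2, ℤ) ⧸ Γ) = x :=
  QuotientGroup.out_eq' x

theorem elt_mem (g : SL(2, ℤ)) (x : SL(2, ℤ) ⧸ Γ) :
    (rep Γ x)⁻¹ * (g * rep Γ (g⁻¹ • x)) ∈ Γ := by
  rw [← QuotientGroup.eq, mk_rep, ← smul_eq_mul g, ← MulAction.Quotient.smul_mk, mk_rep,
    smul_inv_smul]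

/-- The element `r_x⁻¹ g r_{g⁻¹ x}` of `Γ`. -/
noncomputable def elt (g : SL(2, ℤ)) (x : SL(2, ℤ) ⧸ Γ) : Γ :=
  ⟨(rep Γ x)⁻¹ * (g * rep Γ (g⁻¹ • x)), elt_mem Γ g x⟩

theorem elt_mul (g h : SL(2, ℤ)) (x : SL(2, ℤ) ⧸ Γ) :
    elt Γ (g * h) x = elt Γ g x * elt Γ h (g⁻¹ • x) := by
  apply Subtype.ext
  simp only [elt, Subgroup.coe_mul, _root_.mul_inv_rev, mul_smul]
  group

/-- The induced cocycle `g ↦ (x ↦ φ (r_x⁻¹ g r_{g⁻¹ x}))`. -/
noncomputable def indCocycle :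
    (Additive Γ →+ ℂ) →ₗ[ℂ] (SL(2, ℤ) → (SL(2, ℤ) ⧸ Γ) → ℂ) where
  toFun φ g x := φ (Additive.ofMul (elt Γ g x))
  map_add' _ _ := rfl
  map_smul' _ _ := rfl

theorem indCocycle_apply (φ : Additive Γ →+ ℂ) (g : SL(2, ℤ)) (x : SL(2, ℤ) ⧸ Γ) :
    indCocycle Γ φ g x = φ (Additive.ofMul (elt Γ g x)) := rfl

theorem isCocycle_indCocycle (φ : Additive Γ →+ ℂ) : IsCocycle (indCocycle Γ φ) := by
  intro g h
  funext x
  show φ (Additive.ofMul (elt Γ (g * h) x))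
    = φ (Additive.ofMul (elt Γ g x)) + φ (Additive.ofMul (elt Γ h (g⁻¹ • x)))
  rw [elt_mul, ofMul_mul, map_add]

theorem trace_conj (a b : SL(2, ℤ)) :
    ((a⁻¹ * (b * a) : SL(2, ℤ)) : Matrix (Fin 2) (Fin 2) ℤ).trace
      = (b : Matrix (Fin 2) (Fin 2) ℤ).trace := by
  have h1 : ((a⁻¹ * (b * a) : SL(2, ℤ)) : Matrix (Fin 2) (Fin 2) ℤ)
      = (a⁻¹ : SL(2, ℤ)).1 * ((b * a : SL(2, ℤ))).1 := rfl
  have h2 : ((b * a : SL(2, ℤ))).1 * (a⁻¹ : SL(2, ℤ)).1 = b.1 := by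
    have : ((b * a) * a⁻¹ : SL(2, ℤ)) = b := mul_inv_cancel_right b a
    exact congrArg Subtype.val this
  rw [h1, Matrix.trace_mul_comm, h2]

theorem indCocycle_eq_zero_of_fixed {φ : Additive Γ →+ ℂ} (hφ : IsParabolicHom Γ φ)
    (g : SL(2, ℤ)) (x : SL(2, ℤ) ⧸ Γ) (hx : g⁻¹ • x = x)
    (htr : (g : Matrix (Fin 2) (Fin 2) ℤ).trace ^ 2 = 4) : indCocycle Γ φ g x = 0 := by
  apply hφ
  have h : ((elt Γ g x : Γ) : SL(2, ℤ)) = (rep Γ x)⁻¹ * (g * rep Γ x) := by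
    simp [elt, hx]
  rw [h, trace_conj]
  exact htr

theorem trace_T_pow_sq (n : ℕ) :
    ((T ^ n : SL(2, ℤ)) : Matrix (Fin 2) (Fin 2) ℤ).trace ^ 2 = 4 := by
  have := coe_T_zpow (n : ℤ)
  rw [zpow_natCast] at this
  rw [this]
  simp [Matrix.trace_fin_two]

theorem trace_neg_one_sq :
    ((-1 : SL(2, ℤ)) : Matrix (Fin 2) (Fin 2) ℤ).trace ^ 2 = 4 := by
  simp

/-- `-1 ∈ Γ` acts trivially on `SL(2, ℤ) ⧸ Γ`. -/
theorem neg_one_smul_coset (hneg : -1 ∈ Γ) (x : SL(2, ℤ) ⧸ Γ) : (-1 : SL(2, ℤ)) • x = x := by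
  induction x using QuotientGroup.induction_on with
  | H g =>
    rw [MulAction.Quotient.smul_mk, QuotientGroup.eq, smul_eq_mul]
    have : (-1 * g)⁻¹ * g = -1 := by simp
    rw [this]
    exact hneg

/-- **Main bound** (invariants form): for a finite-index `Γ ≤ SL(2, ℤ)` containing `-1`,
`dim Hom_par(Γ, ℂ) + dim V^S + dim V^{ST} + dim V^T ≤ [SL(2, ℤ) : Γ] + 2`. -/
theorem finrank_parabolicHoms_add_invariants_le [Γ.FiniteIndex] (hneg : -1 ∈ Γ) :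
    Module.Finite ℂ (parabolicHoms ℂ Γ ℂ) ∧
      finrank ℂ (parabolicHoms ℂ Γ ℂ) + finrank ℂ (invariants (X := SL(2, ℤ) ⧸ Γ) S)
        + finrank ℂ (invariants (X := SL(2, ℤ) ⧸ Γ) (S * T))
        + finrank ℂ (invariants (X := SL(2, ℤ) ⧸ Γ) T) ≤ Nat.card (SL(2, ℤ) ⧸ Γ) + 2 := by
  classical
  let _ : Fintype (SL(2, ℤ) ⧸ Γ) := Fintype.ofFinite _
  have hSS : (S * S : SL(2, ℤ)) = -1 := by decide
  have hUUU : (S * T * (S * T) * (S * T) : SL(2, ℤ)) = -1 := by decide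
  have hgen : Subgroup.closure ({S, S * T} : Set SL(2, ℤ)) = ⊤ := by
    rw [eq_top_iff, ← SpecialLinearGroup.SL2Z_generators, Subgroup.closure_le]
    rintro x (rfl | rfl)
    · exact Subgroup.subset_closure (by simp)
    · have h1 : S ∈ Subgroup.closure ({S, S * T} : Set SL(2, ℤ)) :=
        Subgroup.subset_closure (by simp)
      have h2 : S * T ∈ Subgroup.closure ({S, S * T} : Set SL(2, ℤ)) :=
        Subgroup.subset_closure (by simp)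
      have := Subgroup.mul_mem _ (Subgroup.inv_mem _ h1) h2
      simpa using this
  have hT : (S⁻¹ * (S * T) : SL(2, ℤ)) = T := inv_mul_cancel_left S T
  have hfix : ∀ x : SL(2, ℤ) ⧸ Γ, (-1 : SL(2, ℤ))⁻¹ • x = x := by
    intro x
    rw [inv_smul_eq_iff, neg_one_smul_coset Γ hneg]
  have key := cocycle_space_bound (G := SL(2, ℤ)) (X := SL(2, ℤ) ⧸ Γ)
    (H := parabolicHoms ℂ Γ ℂ) S (S * T) hgen
    (fun x ↦ by rw [hSS]; exact neg_one_smul_coset Γ hneg x)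
    (fun x ↦ by rw [hUUU]; exact neg_one_smul_coset Γ hneg x)
    (indCocycle Γ ∘ₗ (parabolicHoms ℂ Γ ℂ).subtype)
    (fun φ ↦ isCocycle_indCocycle Γ φ.1)
    (fun φ ↦ by
      funext x
      rw [hSS]
      exact indCocycle_eq_zero_of_fixed Γ φ.2 (-1) x (hfix x) trace_neg_one_sq)
    (fun φ ↦ by
      funext x
      rw [hUUU]
      exact indCocycle_eq_zero_of_fixed Γ φ.2 (-1) x (hfix x) trace_neg_one_sq)
    ?_ ?_
  · rw [hT] at key
    rw [Nat.card_eq_fintype_card]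
    exact key
  · -- parabolic condition
    intro φ
    rw [hT]
    refine ⟨orderOf (MulAction.toPermHom SL(2, ℤ) (SL(2, ℤ) ⧸ Γ) T), orderOf_pos _, ?_⟩
    set n := orderOf (MulAction.toPermHom SL(2, ℤ) (SL(2, ℤ) ⧸ Γ) T) with hn
    have hTn : ∀ x : SL(2, ℤ) ⧸ Γ, (T ^ n)⁻¹ • x = x := by
      intro x
      rw [inv_smul_eq_iff]
      have h1 : MulAction.toPermHom SL(2, ℤ) (SL(2, ℤ) ⧸ Γ) (T ^ n) = 1 := by
        rw [map_pow, hn, pow_orderOf_eq_one]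
      have h2 := congrArg (fun σ : Equiv.Perm (SL(2, ℤ) ⧸ Γ) ↦ σ x) h1
      exact h2.symm
    funext x
    exact indCocycle_eq_zero_of_fixed Γ φ.2 (T ^ n) x (hTn x) (trace_T_pow_sq n)
  · -- the induced cocycle of `φ ≠ 0` is not a coboundary
    intro φ v h
    apply Subtype.ext
    apply AddMonoidHom.ext
    intro a
    have ha : a = Additive.ofMul (Additive.toMul a) := rfl
    generalize Additive.toMul a = γ at ha
    rw [ha]
    set x₀ : SL(2, ℤ) ⧸ Γ := QuotientGroup.mk 1 with hx₀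
    have hγx : (γ : SL(2, ℤ))⁻¹ • x₀ = x₀ := by
      rw [hx₀, MulAction.Quotient.smul_mk, QuotientGroup.eq, smul_eq_mul]
      simp
    have hρ : rep Γ x₀ ∈ Γ := by
      have := mk_rep Γ x₀
      rw [hx₀, QuotientGroup.eq] at this
      simpa using Γ.inv_mem this
    have h0 := congrFun (h (γ : SL(2, ℤ))) x₀
    have hcob : cob v (γ : SL(2, ℤ)) x₀ = 0 := by
      simp only [cob, Pi.sub_apply, act_apply, hγx, sub_self]
    rw [Pi.add_apply, hcob, add_zero] at h0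
    have helt : elt Γ (γ : SL(2, ℤ)) x₀ = (⟨rep Γ x₀, hρ⟩ : Γ)⁻¹ * (γ * ⟨rep Γ x₀, hρ⟩) := by
      apply Subtype.ext
      simp [elt, hγx]
    have h1 : (φ : Additive Γ →+ ℂ) (Additive.ofMul (elt Γ (γ : SL(2, ℤ)) x₀)) = 0 := h0
    rw [helt, ofMul_mul, ofMul_mul, ofMul_inv, map_add, map_add, map_neg] at h1
    have h2 : (φ : Additive Γ →+ ℂ) (Additive.ofMul γ) = 0 := by
      linear_combination h1
    exact h2

end Induced

end Fermat.Agent.S21.H72
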